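import Fermat.Agent.S36R.NormC.NewOf
import Fermat.Agent.S36R.K0.Kummer
import Fermat.Agent.S36.Geo.GlueCor
import Fermat.Agent.S36.Lvl.Main
import Fermat.Agent.S36.Glue.Final

/-!
# S36, routes R and RC: the shared top

`Concl S d` : the statement over `K0` which the routes R (`New.main`) and RC (`abstract_RC`) prove for a concrete
`S : NormC.Setup A M q`:  a Kummer function `f` over `K0` which is `New` satisfies `f ^ d = c * g ^ n`.

* `nonempty_setup` : a setup exists;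
* `Concl.kill` : `Concl S d` kills the inertia invariant new classes;
* `kvNewInertia_of_concl` : Theorem X at level `M q²`;
* `theoremX_of_concl`, `s36_of_concl` : Theorem X at all levels, from the neat levels.
-/

set_option autoImplicit false
set_option linter.unusedSectionVars false

namespace Fermat.Agent.S36R.Top

open AlgebraicCurve ModularCurve Fermat.Agent.S24 Fermat.Agent.GAL Fermat.Agent.S36.StepA
  Fermat.Agent.S36R.NormC Fermat.Agent.DR Fermat.Agent.S36

variable {A : ValuationSubring Kbar} {M q : ℕ} [NeZero M] [NeZero q]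

/-- a setup exists. -/
theorem nonempty_setup (hq : q.Prime) (hqM : ¬ q ∣ M) (hA : A.LiesOverPrime q) :
    Nonempty (Setup A M q) := by
  have : NeZero (q : Kbar) := ⟨Nat.cast_ne_zero.2 hq.ne_zero⟩
  obtain ⟨ζ, hζ⟩ := HasEnoughRootsOfUnity.exists_primitiveRoot Kbar q
  obtain ⟨W, hW⟩ := Fermat.Agent.S36.Geo.exists_W2 (M := M) hq hqM
  obtain ⟨ι, hι⟩ := Fermat.Agent.S36.Geo.exists_mid (M := M) hq hqM hζ
  exact ⟨⟨hq, hqM, hA, ζ, hζ, W, hW, ι, hι⟩⟩

/-- **The statement over `K0`** proved by the routes R and RC. -/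
def Concl (S : Setup A M q) (d : ℕ) : Prop :=
  ∀ n : ℕ, 0 < n → n.Coprime q → ∀ f : S.F, New S.lvl q n f →
    (∀ P : Place (K0 A) S.F, (n : ℤ) ∣ P.ord f) →
      ∃ (g : S.F) (c : K0 A), g ≠ 0 ∧ c ≠ 0 ∧ f ^ d = algebraMap (K0 A) S.F c * g ^ n

/-- `Concl S d` kills the inertia invariant new classes. -/
theorem Concl.kill {S : Setup A M q} {d : ℕ} (hS : Concl S d) {n : ℕ} (hn : 0 < n)
    (hqn : n.Coprime q) (x : KV Kbar (FN (M * q * q)) n)
    (hI : ∀ σ ∈ A.inertiaSubgroupIn ℚ, σ • x = x)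
    (hα : alphaKV (M * q) q n x = 0) (hβ : betaKV (M * q) q n x = 0) : d • x = 0 := by
  obtain ⟨f, hf0, hf, rfl⟩ := exists_kummerUnit0_rep A (M * q * q) hn.ne' x hI
  rw [alphaKV, KV.map_mk, KV.mk_eq_zero_iff] at hα
  rw [betaKV, KV.map_mk, KV.mk_eq_zero_iff] at hβ
  obtain ⟨yA, hyA⟩ := hα
  obtain ⟨yB, hyB⟩ := hβ
  have hqn' : ¬ q ∣ n := fun h =>
    S.hq.one_lt.ne' (Nat.eq_one_of_dvd_coprimes hqn h dvd_rfl)
  have hnew : New S.lvl q n (f : S.F) :=
    S.new_of hqn' hn _ f.ne_zero (yA : FN (M * q)) (yB : FN (M * q))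
      (by simpa using (congrArg Units.val hyA).symm) (by simpa using (congrArg Units.val hyB).symm)
  obtain ⟨g, c, hg, hc, e⟩ := hS n hn hqn _ hnew hf0
  rw [← KV.mk_pow]
  have h1 := mk_bc0_eq_zero A (M * q * q) hn.ne' (f ^ d)
    (by rw [map_pow]; exact pow_mem hf d) c g (by rw [Units.val_pow_eq_pow_val]; exact e)
  rw [← h1]
  congr 1
  apply Subtype.ext
  simp

/-- **Theorem X at level `M q²`** from `Concl`. -/
theorem kvNewInertia_of_concl (M q p : ℕ) [NeZero M] [NeZero q] (hq : q.Prime) (hp : p.Prime)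
    (hpq : q ≠ p) (d : ℕ) (hd : d ≠ 0)
    (H : ∀ A : ValuationSubring Kbar, A.LiesOverPrime q → ∃ S : Setup A M q, Concl S d) :
    KVNewInertia (M * q) q p := by
  refine ⟨d, hd, fun k A hA x hI hα hβ => ?_⟩
  obtain ⟨S, hS⟩ := H A hA
  exact hS.kill (pow_pos hp.pos k)
    (Nat.Coprime.pow_left k ((Nat.coprime_primes hp hq).2 hpq.symm)) x hI hα hβ

/-- **Theorem X at all levels** from `Concl` at the neat levels. -/
theorem theoremX_of_concl (d : ℕ → ℕ → ℕ) (hd : ∀ M q : ℕ, q.Prime → d M q ≠ 0)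
    (H : ∀ (M q : ℕ) [NeZero M] [NeZero q], q.Prime → ¬ q ∣ M → (4 ∣ M ∨ 9 ∣ M) →
      ∀ A : ValuationSubring Kbar, A.LiesOverPrime q → ∃ S : Setup A M q, Concl S (d M q)) :
    Fermat.Agent.S36.Glue.TheoremX := by
  intro M q p _ _ hq hqM hq2 hp hqp _
  exact Fermat.Agent.S36.Lvl.kvNewInertia_of_neat q p hq
    (fun M' _ hqM' hneat =>
      kvNewInertia_of_concl M' q p hq hp hqp (d M' q) (hd M' q hq) (H M' q hq hqM' hneat))
    M hqM hq2

end Fermat.Agent.S36R.Top
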